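import Fermat.Agent.S56.GW.RQSpec
import Fermat.Agent.S56.H554.TameCyclic

/-!
# S56 / REC-Q leaf LINE (helper305, subtask 644): `GW.LineStatement`

At a Taylor–Wiles prime `q` (`q ≡ 1 mod p`, `ρ̄` unramified at `q`, `ρ̄(Frob)` with two distinct
eigenvalues in `k`) two LOCAL ad⁰-cocycles `x₁, x₂` on `D_P` (relation and finite level only on
`D_P`) have a non-trivial `k`-linear combination vanishing on `I_P`.

Proof.  On `I_P` the `x_i` are additive; they kill the elements which are wild on a common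
(normal) level `L`, so they are determined by their value at ONE tame generator `τ₀` of level `L`
(`H554.exists_tame_generator`).  For a Frobenius element `φ` at `P`,
`ρ̄φ x(τ₀) ρ̄φ⁻¹ = x (φ τ₀ φ⁻¹) = q • x τ₀ = x τ₀`, so `x_i τ₀` is a trace-zero endomorphism
commuting with `ρ̄φ`; these form a line (`exists_dependent_of_commute`).

* `exists_dependent_of_commute` : pure linear algebra in a plane;
* `adOn_*` : local cocycles on inertia (local versions of `H554.IsCoc.*`);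
* `lineStatement : GW.LineStatement`.
-/

set_option autoImplicit false
set_option linter.style.haveILetI false

open Polynomial

namespace Fermat.Agent.S56.H305

open Fermat.Agent.A2.H708 Fermat.Agent.S56 Fermat.Agent.S56.H716 Fermat.Agent.S56.GW
open Fermat.Agent.S56.H554

attribute [local instance] Fermat.Agent.S56.H554.isAlgebraic_Qb

section Plane

variable {k : Type*} [Field k] {V : Type*} [AddCommGroup V] [Module k V]

/-- In a plane with a basis of eigenvectors for two distinct eigenvalues, every eigenvector is a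
multiple of the corresponding basis vector. -/
theorem eq_smul_basis_of_eigen {A : Module.End k V} {α β : k} (hαβ : α ≠ β)
    (b : Module.Basis (Fin 2) k V) (h0 : A (b 0) = α • b 0) (h1 : A (b 1) = β • b 1) :
    (∀ u, A u = α • u → u = b.repr u 0 • b 0) ∧ (∀ u, A u = β • u → u = b.repr u 1 • b 1) := by
  have hu : ∀ u : V, u = b.repr u 0 • b 0 + b.repr u 1 • b 1 := by
    intro u
    conv_lhs => rw [← b.sum_repr u, Fin.sum_univ_two]
  have hA : ∀ u : V, A u = (b.repr u 0 * α) • b 0 + (b.repr u 1 * β) • b 1 := by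
    intro u
    conv_lhs => rw [hu u]
    rw [map_add, map_smul, map_smul, h0, h1, smul_smul, smul_smul]
  have hs : ∀ (c : k) (u : V), c • u = (b.repr u 0 * c) • b 0 + (b.repr u 1 * c) • b 1 := by
    intro c u
    conv_lhs => rw [hu u]
    rw [smul_add, smul_smul, smul_smul, mul_comm c, mul_comm c]
  constructor
  · intro u hAu
    have h2 := (hA u).symm.trans (hAu.trans (hs α u))
    have h3 := add_left_cancel h2
    have h4 : (b.repr u 1 * (β - α)) • b 1 = 0 := by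
      rw [mul_sub, sub_smul, h3, sub_self]
    have h5 : b.repr u 1 = 0 := by
      rcases smul_eq_zero.mp h4 with h | h
      · rcases mul_eq_zero.mp h with h' | h'
        · exact h'
        · exact absurd (sub_eq_zero.mp h').symm hαβ
      · exact absurd h (b.ne_zero 1)
    have h6 := hu u
    rw [h5, zero_smul, add_zero] at h6
    exact h6
  · intro u hAu
    have h2 := (hA u).symm.trans (hAu.trans (hs β u))
    have h3 := add_right_cancel h2
    have h4 : (b.repr u 0 * (α - β)) • b 0 = 0 := by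
      rw [mul_sub, sub_smul, h3, sub_self]
    have h5 : b.repr u 0 = 0 := by
      rcases smul_eq_zero.mp h4 with h | h
      · rcases mul_eq_zero.mp h with h' | h'
        · exact h'
        · exact absurd (sub_eq_zero.mp h') hαβ
      · exact absurd h (b.ne_zero 0)
    have h6 := hu u
    rw [h5, zero_smul, zero_add] at h6
    exact h6

/-- **Centraliser line.**  In a plane, two trace-zero endomorphisms commuting with an
endomorphism having two distinct eigenvalues in `k` are linearly dependent. -/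
theorem exists_dependent_of_commute [Module.Finite k V] (hV : Module.finrank k V = 2)
    {A : Module.End k V}
    {α β : k} (hαβ : α ≠ β) (hA : LinearMap.charpoly A = (X - C α) * (X - C β))
    {m₁ m₂ : Module.End k V} (ht₁ : LinearMap.trace k V m₁ = 0)
    (ht₂ : LinearMap.trace k V m₂ = 0) (hc₁ : A * m₁ = m₁ * A) (hc₂ : A * m₂ = m₂ * A) :
    ∃ a b : k, (a ≠ 0 ∨ b ≠ 0) ∧ a • m₁ + b • m₂ = 0 := by
  -- eigenvectors
  have hα : A.HasEigenvalue α := by
    rw [Module.End.hasEigenvalue_iff_isRoot_charpoly, hA]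
    simp [IsRoot]
  have hβ : A.HasEigenvalue β := by
    rw [Module.End.hasEigenvalue_iff_isRoot_charpoly, hA]
    simp [IsRoot]
  obtain ⟨v, hv⟩ := hα.exists_hasEigenvector
  obtain ⟨w, hw⟩ := hβ.exists_hasEigenvector
  have hAv : A v = α • v := hv.apply_eq_smul
  have hAw : A w = β • w := hw.apply_eq_smul
  have hv0 : v ≠ 0 := hv.2
  have hw0 : w ≠ 0 := hw.2
  have hwv : ∀ c : k, w ≠ c • v := by
    intro c hc
    have h1 : A w = α • w := by rw [hc, map_smul, hAv, smul_comm]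
    rw [hAw] at h1
    have h2 : (β - α) • w = 0 := by rw [sub_smul, h1, sub_self]
    rcases smul_eq_zero.mp h2 with h | h
    · exact hαβ (sub_eq_zero.mp h).symm
    · exact hw0 h
  have hli : LinearIndependent k ![v, w] := by
    rw [LinearIndependent.pair_iff' hv0]
    intro a ha
    exact hwv a ha.symm
  obtain ⟨b, hb0, hb1⟩ : ∃ b : Module.Basis (Fin 2) k V, b 0 = v ∧ b 1 = w := by
    refine ⟨basisOfLinearIndependentOfCardEqFinrank hli (by simp [hV]), ?_, ?_⟩ <;> simp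
  have hAb0 : A (b 0) = α • b 0 := by rw [hb0]; exact hAv
  have hAb1 : A (b 1) = β • b 1 := by rw [hb1]; exact hAw
  obtain ⟨hE0, hE1⟩ := eq_smul_basis_of_eigen hαβ b hAb0 hAb1
  -- a commuting endomorphism is diagonal in the basis `b`, with entries `s`, `-s`
  have hdiag : ∀ m : Module.End k V, LinearMap.trace k V m = 0 → A * m = m * A →
      ∃ s : k, m (b 0) = s • b 0 ∧ m (b 1) = (-s) • b 1 := by
    intro m ht hc
    have e0 : A (m (b 0)) = α • m (b 0) := by
      have := congrArg (fun f : Module.End k V => f (b 0)) hc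
      simp only [Module.End.mul_apply] at this
      rw [this, hAb0, map_smul]
    have e1 : A (m (b 1)) = β • m (b 1) := by
      have := congrArg (fun f : Module.End k V => f (b 1)) hc
      simp only [Module.End.mul_apply] at this
      rw [this, hAb1, map_smul]
    have d0 := hE0 _ e0
    have d1 := hE1 _ e1
    have htr : b.repr (m (b 0)) 0 + b.repr (m (b 1)) 1 = 0 := by
      rw [LinearMap.trace_eq_matrix_trace k b m, Matrix.trace_fin_two,
        LinearMap.toMatrix_apply, LinearMap.toMatrix_apply] at ht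
      exact ht
    refine ⟨b.repr (m (b 0)) 0, d0, ?_⟩
    rw [← eq_neg_of_add_eq_zero_right htr]
    exact d1
  obtain ⟨s₁, h10, h11⟩ := hdiag m₁ ht₁ hc₁
  obtain ⟨s₂, h20, h21⟩ := hdiag m₂ ht₂ hc₂
  by_cases hs : s₁ = 0
  · refine ⟨1, 0, Or.inl one_ne_zero, ?_⟩
    apply b.ext
    intro i
    fin_cases i
    · simp [h10, hs]
    · simp [h11, hs]
  · refine ⟨s₂, -s₁, Or.inr (neg_ne_zero.mpr hs), ?_⟩
    apply b.ext
    intro i
    fin_cases i
    · show (s₂ • m₁ + -s₁ • m₂) (b 0) = (0 : Module.End k V) (b 0)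
      rw [LinearMap.add_apply, LinearMap.smul_apply, LinearMap.smul_apply, h10, h20,
        LinearMap.zero_apply, smul_smul, smul_smul, ← add_smul]
      have : s₂ * s₁ + -s₁ * s₂ = 0 := by ring
      rw [this, zero_smul]
    · show (s₂ • m₁ + -s₁ • m₂) (b 1) = (0 : Module.End k V) (b 1)
      rw [LinearMap.add_apply, LinearMap.smul_apply, LinearMap.smul_apply, h11, h21,
        LinearMap.zero_apply, smul_smul, smul_smul, ← add_smul]
      have : s₂ * -s₁ + -s₁ * -s₂ = 0 := by ring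
      rw [this, zero_smul]

end Plane

section Local

variable {k : Type} [Field k] {ρbar : ResidualGaloisRep k} {P : ValuationSubring Qb}

/-- A local cocycle vanishes at `1`. -/
theorem adOn_map_one {H : Subgroup GQ} {x : GQ → Module.End k ρbar.V}
    (hx : IsAdCocycleOn ρbar H x) : x 1 = 0 := by
  have h := hx.map_mul 1 H.one_mem 1 H.one_mem
  rw [mul_one, _root_.map_one, inv_one, _root_.map_one, one_mul, mul_one] at h
  exact left_eq_add.mp h

/-- A local cocycle on `D_P` is additive in the first variable on inertia (`ρ̄` unramified). -/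
theorem adOn_add (hur : ∀ σ ∈ P.inertiaSubgroupIn ℚ, ρbar.ρ σ = 1)
    {x : GQ → Module.End k ρbar.V} (hx : IsAdCocycleOn ρbar (P.decompositionSubgroup ℚ) x)
    {σ τ : GQ} (hσ : σ ∈ P.inertiaSubgroupIn ℚ) (hτ : τ ∈ P.decompositionSubgroup ℚ) :
    x (σ * τ) = x σ + x τ := by
  have h1 : ρbar.ρ σ⁻¹ = 1 := hur _ (inv_mem hσ)
  rw [hx.map_mul σ (mem_decomposition_of_mem_inertiaIn P hσ) τ hτ, hur σ hσ, h1, one_mul,
    mul_one]

/-- The restriction of a local cocycle to the inertia group, as a group hom. -/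
noncomputable def adOnHom (hur : ∀ σ ∈ P.inertiaSubgroupIn ℚ, ρbar.ρ σ = 1)
    {x : GQ → Module.End k ρbar.V} (hx : IsAdCocycleOn ρbar (P.decompositionSubgroup ℚ) x) :
    ↥(P.inertiaSubgroupIn ℚ) →* Multiplicative (Module.End k ρbar.V) where
  toFun σ := Multiplicative.ofAdd (x σ)
  map_one' := by
    show Multiplicative.ofAdd (x 1) = 1
    rw [adOn_map_one hx]
    rfl
  map_mul' σ τ := by
    show Multiplicative.ofAdd (x (σ * τ)) = Multiplicative.ofAdd (x σ) * Multiplicative.ofAdd (x τ)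
    rw [adOn_add hur hx σ.2 (mem_decomposition_of_mem_inertiaIn P τ.2)]
    rfl

theorem adOnHom_apply (hur : ∀ σ ∈ P.inertiaSubgroupIn ℚ, ρbar.ρ σ = 1)
    {x : GQ → Module.End k ρbar.V} (hx : IsAdCocycleOn ρbar (P.decompositionSubgroup ℚ) x)
    (σ : ↥(P.inertiaSubgroupIn ℚ)) : adOnHom hur hx σ = Multiplicative.ofAdd (x σ) := rfl

theorem adOn_map_pow (hur : ∀ σ ∈ P.inertiaSubgroupIn ℚ, ρbar.ρ σ = 1)
    {x : GQ → Module.End k ρbar.V} (hx : IsAdCocycleOn ρbar (P.decompositionSubgroup ℚ) x)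
    {τ : GQ} (hτ : τ ∈ P.inertiaSubgroupIn ℚ) (n : ℕ) : x (τ ^ n) = n • x τ := by
  have h := map_pow (adOnHom hur hx) ⟨τ, hτ⟩ n
  have h1 : adOnHom hur hx (⟨τ, hτ⟩ ^ n) = Multiplicative.ofAdd (x (τ ^ n)) := rfl
  rw [h1, adOnHom_apply] at h
  exact Multiplicative.ofAdd.injective h

theorem adOn_map_zpow (hur : ∀ σ ∈ P.inertiaSubgroupIn ℚ, ρbar.ρ σ = 1)
    {x : GQ → Module.End k ρbar.V} (hx : IsAdCocycleOn ρbar (P.decompositionSubgroup ℚ) x)
    {τ : GQ} (hτ : τ ∈ P.inertiaSubgroupIn ℚ) (n : ℤ) : x (τ ^ n) = n • x τ := by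
  have h := map_zpow (adOnHom hur hx) ⟨τ, hτ⟩ n
  have h1 : adOnHom hur hx (⟨τ, hτ⟩ ^ n) = Multiplicative.ofAdd (x (τ ^ n)) := rfl
  rw [h1, adOnHom_apply] at h
  exact Multiplicative.ofAdd.injective h

variable {q p : ℕ}

/-- **Wild elements are killed by local cocycles** (`char k = p ≠ q`). -/
theorem adOn_eq_zero_of_wild [CharP k p] (hq : q.Prime) (hP : P.LiesOverPrime q)
    (hp : p.Prime) (hpq : p ≠ q)
    {L : IntermediateField ℚ Qb} [FiniteDimensional ℚ L] (hL : ∀ σ : GQ, ∀ y ∈ L, σ y ∈ L)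
    (hur : ∀ σ ∈ P.inertiaSubgroupIn ℚ, ρbar.ρ σ = 1)
    {x : GQ → Module.End k ρbar.V} (hx : IsAdCocycleOn ρbar (P.decompositionSubgroup ℚ) x)
    (hlev : ∀ σ ∈ P.decompositionSubgroup ℚ, ∀ τ ∈ P.decompositionSubgroup ℚ,
      (∀ y ∈ L, τ y = y) → x (σ * τ) = x σ)
    {ω : GQ} (hω : ω ∈ P.inertiaSubgroupIn ℚ) (hwild : IsWildOn P ω (L : Set Qb)) :
    x ω = 0 := by
  have h := map_eq_one_of_wild_subgroup (A := P) (P.inertiaSubgroupIn ℚ) (adOnHom hur hx) L
    (fun σ hσ => by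
      rw [adOnHom_apply]
      have h1 := hlev 1 (Subgroup.one_mem _) σ (mem_decomposition_of_mem_inertiaIn P σ.2) hσ
      rw [one_mul, adOn_map_one hx] at h1
      rw [h1]
      rfl)
    hω hω (hL ω) hwild p hp (valuation_prime_eq_one hq hP hp hpq) 1
    (by
      rw [pow_one, ← map_pow]
      have h1 : adOnHom hur hx (⟨ω, hω⟩ ^ p) = Multiplicative.ofAdd (x (ω ^ p)) := rfl
      rw [h1, adOn_map_pow hur hx hω, ← Nat.cast_smul_eq_nsmul k, CharP.cast_eq_zero,
        zero_smul]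
      rfl)
  rw [adOnHom_apply] at h
  exact Multiplicative.ofAdd.injective h

/-- The cocycle relation for a conjugate: `x (φ τ φ⁻¹) = ρ̄φ (x τ) ρ̄φ⁻¹` for `τ ∈ I_P`,
`φ ∈ D_P`. -/
theorem adOn_map_conj (hur : ∀ σ ∈ P.inertiaSubgroupIn ℚ, ρbar.ρ σ = 1)
    {x : GQ → Module.End k ρbar.V} (hx : IsAdCocycleOn ρbar (P.decompositionSubgroup ℚ) x)
    {φ τ : GQ} (hφ : φ ∈ P.decompositionSubgroup ℚ) (hτ : τ ∈ P.inertiaSubgroupIn ℚ) :
    x (φ * τ * φ⁻¹) = ρbar.ρ φ * x τ * ρbar.ρ φ⁻¹ := by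
  have hφi : φ⁻¹ ∈ P.decompositionSubgroup ℚ := inv_mem hφ
  have hτD : τ ∈ P.decompositionSubgroup ℚ := mem_decomposition_of_mem_inertiaIn P hτ
  have h0 : x φ + ρbar.ρ φ * x φ⁻¹ * ρbar.ρ φ⁻¹ = 0 := by
    have := hx.map_mul φ hφ φ⁻¹ hφi
    rw [mul_inv_cancel, adOn_map_one hx] at this
    exact this.symm
  rw [mul_assoc, hx.map_mul φ hφ (τ * φ⁻¹) (mul_mem hτD hφi), adOn_add hur hx hτ hφi, mul_add,
    add_mul, ← add_assoc, add_right_comm, h0, zero_add]

/-- **Frobenius relation**: if `q ≡ 1 mod p`, the values of a local cocycle on inertia commute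
with `ρ̄(Frob)`. -/
theorem adOn_commute_frobenius [CharP k p] (hq : q.Prime) (hP : P.LiesOverPrime q)
    (hp : p.Prime) (hpq : p ≠ q) (hq1 : p ∣ q - 1)
    {L : IntermediateField ℚ Qb} [FiniteDimensional ℚ L] (hL : ∀ σ : GQ, ∀ y ∈ L, σ y ∈ L)
    (hur : ∀ σ ∈ P.inertiaSubgroupIn ℚ, ρbar.ρ σ = 1)
    {x : GQ → Module.End k ρbar.V} (hx : IsAdCocycleOn ρbar (P.decompositionSubgroup ℚ) x)
    (hlev : ∀ σ ∈ P.decompositionSubgroup ℚ, ∀ τ ∈ P.decompositionSubgroup ℚ,
      (∀ y ∈ L, τ y = y) → x (σ * τ) = x σ)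
    {φ τ : GQ} (hφ : P.IsFrobeniusAt φ q) (hτ : τ ∈ P.inertiaSubgroupIn ℚ) :
    ρbar.ρ φ * x τ = x τ * ρbar.ρ φ := by
  have hqk : ((q : ℕ) : k) = 1 := by
    have h1 : ((q - 1 : ℕ) : k) = 0 := (CharP.cast_eq_zero_iff k p _).mpr hq1
    have h2 : q = (q - 1) + 1 := (Nat.sub_add_cancel hq.one_le).symm
    rw [h2, Nat.cast_add, h1, zero_add, Nat.cast_one]
  obtain ⟨ω, hω, hwild, hconj⟩ := isWildOn_conj_frobenius hφ hτ (L : Set Qb)
  have hτq : τ ^ q ∈ P.inertiaSubgroupIn ℚ := pow_mem hτ q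
  have h1 : x (φ * τ * φ⁻¹) = x τ := by
    rw [hconj, adOn_add hur hx hω (mem_decomposition_of_mem_inertiaIn P hτq),
      adOn_eq_zero_of_wild hq hP hp hpq hL hur hx hlev hω hwild, zero_add,
      adOn_map_pow hur hx hτ, ← Nat.cast_smul_eq_nsmul k, hqk, one_smul]
  rw [adOn_map_conj hur hx hφ.mem_decompositionSubgroup hτ] at h1
  have hinv : ρbar.ρ φ⁻¹ * ρbar.ρ φ = 1 := by
    rw [← _root_.map_mul, inv_mul_cancel, _root_.map_one]
  calc ρbar.ρ φ * x τ = ρbar.ρ φ * x τ * (ρbar.ρ φ⁻¹ * ρbar.ρ φ) := by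
        rw [hinv, mul_one]
    _ = (ρbar.ρ φ * x τ * ρbar.ρ φ⁻¹) * ρbar.ρ φ := by rw [mul_assoc, mul_assoc, mul_assoc]
    _ = x τ * ρbar.ρ φ := by rw [h1]

/-- A finite level can be enlarged to a finite level stable under `G_ℚ`. -/
theorem exists_stable_level (L₁ L₂ : IntermediateField ℚ Qb) [FiniteDimensional ℚ L₁]
    [FiniteDimensional ℚ L₂] :
    ∃ M : IntermediateField ℚ Qb, FiniteDimensional ℚ M ∧ L₁ ≤ M ∧ L₂ ≤ M ∧
      ∀ σ : GQ, ∀ y ∈ M, σ y ∈ M := by
  haveI : IsAlgClosure ℚ Qb := ⟨inferInstance, inferInstance⟩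
  haveI : Normal ℚ Qb := IsAlgClosure.normal ℚ Qb
  let M : IntermediateField ℚ Qb := IntermediateField.normalClosure ℚ ↥(L₁ ⊔ L₂) Qb
  haveI : Normal ℚ M := normalClosure.normal ℚ ↥(L₁ ⊔ L₂) Qb
  haveI : FiniteDimensional ℚ M := normalClosure.is_finiteDimensional ℚ ↥(L₁ ⊔ L₂) Qb
  have hLM : L₁ ⊔ L₂ ≤ M := IntermediateField.le_normalClosure (L₁ ⊔ L₂)
  refine ⟨M, inferInstance, le_sup_left.trans hLM, le_sup_right.trans hLM, fun σ y hy => ?_⟩
  have h := AlgEquiv.restrictNormal_commutes σ M ⟨y, hy⟩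
  have h2 : σ y = ((σ.restrictNormal M ⟨y, hy⟩ : M) : Qb) := h.symm
  rw [h2]
  exact (σ.restrictNormal M ⟨y, hy⟩).2

end Local

/-- **(LINE)** `GW.LineStatement`. -/
theorem lineStatement : LineStatement := by
  intro k _ _ ρbar p q P h x₁ x₂ hx₁ hx₂
  haveI : CharP k p := h.hchar
  have hq := h.hq
  have hp := h.hp
  have hP := h.hP
  have hur : ∀ σ ∈ P.inertiaSubgroupIn ℚ, ρbar.ρ σ = 1 := h.hur P hP
  have hpq : p ≠ q := by
    rintro rfl
    have h1 := Nat.le_of_dvd (Nat.sub_pos_of_lt hq.one_lt) h.hq1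
    have h2 := hq.one_lt
    omega
  -- a common stable level
  obtain ⟨L₁, hL₁, hlev₁⟩ := hx₁.level
  obtain ⟨L₂, hL₂, hlev₂⟩ := hx₂.level
  obtain ⟨L, hLfin, hL₁L, hL₂L, hL⟩ := exists_stable_level L₁ L₂
  have hlev₁' : ∀ σ ∈ P.decompositionSubgroup ℚ, ∀ τ ∈ P.decompositionSubgroup ℚ,
      (∀ y ∈ L, τ y = y) → x₁ (σ * τ) = x₁ σ :=
    fun σ hσ τ hτ hfix => hlev₁ σ hσ τ hτ fun y hy => hfix y (hL₁L hy)
  have hlev₂' : ∀ σ ∈ P.decompositionSubgroup ℚ, ∀ τ ∈ P.decompositionSubgroup ℚ,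
      (∀ y ∈ L, τ y = y) → x₂ (σ * τ) = x₂ σ :=
    fun σ hσ τ hτ hfix => hlev₂ σ hσ τ hτ fun y hy => hfix y (hL₂L hy)
  -- a tame generator and a Frobenius element
  obtain ⟨τ₀, hτ₀, hgen⟩ := exists_tame_generator hq hP L
  obtain ⟨φ, hφ, -⟩ := Fermat.Agent.Lib.Cheb.H476.exists_frobenius_at q hq P hP
  obtain ⟨α, β, hαβ, hchar⟩ := h.hfrob φ hφ
  have hc₁ := adOn_commute_frobenius hq hP hp hpq h.hq1 hL hur hx₁ hlev₁' hφ hτ₀
  have hc₂ := adOn_commute_frobenius hq hP hp hpq h.hq1 hL hur hx₂ hlev₂' hφ hτ₀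
  have hI0 : τ₀ ∈ P.decompositionSubgroup ℚ := mem_decomposition_of_mem_inertiaIn P hτ₀
  obtain ⟨a, b, hab, hzero⟩ := exists_dependent_of_commute ρbar.finrank_eq hαβ hchar
    (hx₁.trace_eq_zero τ₀ hI0) (hx₂.trace_eq_zero τ₀ hI0) hc₁ hc₂
  refine ⟨a, b, hab, fun σ hσ => ?_⟩
  obtain ⟨n, ω, hω, hwild, rfl⟩ := hgen σ hσ
  have hn : τ₀ ^ n ∈ P.inertiaSubgroupIn ℚ := zpow_mem hτ₀ n
  have hωD : ω ∈ P.decompositionSubgroup ℚ := mem_decomposition_of_mem_inertiaIn P hω
  rw [adOn_add hur hx₁ hn hωD, adOn_add hur hx₂ hn hωD,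
    adOn_eq_zero_of_wild hq hP hp hpq hL hur hx₁ hlev₁' hω hwild,
    adOn_eq_zero_of_wild hq hP hp hpq hL hur hx₂ hlev₂' hω hwild, add_zero, add_zero,
    adOn_map_zpow hur hx₁ hτ₀, adOn_map_zpow hur hx₂ hτ₀, smul_comm a n, smul_comm b n,
    ← smul_add, hzero, smul_zero]

end Fermat.Agent.S56.H305
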